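import Fermat.Agent.Engine.Lifting.RaisingAtP
import Fermat.Agent.TwoAdic.TSide.BoundPoly

/-!
# At a level prime to `p` the defect of the unit root is injective

The eigenvalues of `T_p` on forms are smaller than `p + 1`; so a non-zero integer is a multiple of
`α ^ 2 - 1` on the localised classes.
-/

noncomputable section

namespace Fermat.Agent.General

open Engine EigenRep HeckeModule IsLocalRing DefRing Deform EigenSystems Engine.TRep Engine.Lifting
open Polynomial (aeval)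

local notation "Qbar" => AlgebraicClosure ℚ

variable {p : ℕ} [Fact p.Prime] {O : Type} [CommRing O] [IsDomain O]
  [IsDiscreteValuationRing O] [IsAdicComplete (maximalIdeal O) O] [Finite (ResidueField O)]
  [CharZero O] {ι₀ : ℤ_[p] →+* O} {N₀ : ℕ} {lam : ℕ → O} {L₀ : LevelData O}

/-- A non-zero integer is a multiple of the defect in the action on the classes. -/
theorem exists_dvd_defect (H : BaseSetting p ι₀ N₀ lam L₀) (hplace : TopPlaceHyp p ι₀ N₀ lam L₀)
    {S Sig : Finset ℕ} {M : ℕ} [NeZero M]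
    (hA : LevelArith p N₀ L₀ S ∅ M (fun q => (1 : (ZMod q)ˣ →* O))) (hpM : ¬ p ∣ M)
    (hSig : ∀ ℓ : ℕ, ℓ.Prime → ℓ ∣ M * p → ℓ ∈ Sig) (PR : (L₀.withSigma Sig).RepRing)
    {d : ℕ} (hd : d ≠ 0)
    {b : Module.Basis (Fin d) O (CohLoc
      (awayMonoid (lamIdeal (Λ := O) (residue_surjective (R := O)) S lam))
      (scalarRep (charSq (fun q => (1 : (ZMod q)ˣ →* O)) ∅ M) O))}
    {act : PR.R →+* Matrix (Fin d) (Fin d) O}
    (hact : IsLevelAct ι₀ (Λ := O) (residue_surjective (R := O)) S lam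
      (fun q => (1 : (ZMod q)ˣ →* O)) ∅ M PR b act)
    {A : ValuationSubring Qbar} (hPl : A.LiesOverPrime p)
    (hinertia : ∀ σ ∈ A.inertiaSubgroupIn ℚ, (L₀.D.rbar σ).trace = 1 + (L₀.D.rbar σ).det)
    {χ : GQ → O} (hχ : ∀ σ, χ σ = ι₀ (epsilonPadic p σ : ℤ_[p])) {σ₀ φF : GQ}
    (hσ₀ : σ₀ ∈ A.inertiaSubgroupIn ℚ) (hunit : IsUnit (χ σ₀ - 1))
    (hφ : A.IsFrobeniusAt φF p) :
    ∃ c : ℤ, c ≠ 0 ∧ ∃ h : PR.R,
      act ((c : PR.R) + (Top.unitRoot χ σ₀ φF PR.rep ^ 2 - 1) * h) = 0 := by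
  classical
  have hp : p.Prime := Fact.out
  have : Fact p.Prime := ⟨hp⟩
  have := H.charP_residue_base
  have : NeZero (M * ∏ q ∈ (∅ : Finset ℕ), q) := ⟨by simpa using NeZero.ne M⟩
  have hpT : ¬ p ∣ M * ∏ q ∈ (∅ : Finset ℕ), q := by simpa using hpM
  have hSig' : ∀ ℓ : ℕ, ℓ.Prime → ℓ ∣ M * (∏ q ∈ (∅ : Finset ℕ), q) * p → ℓ ∈ Sig := fun ℓ hℓ h =>
    hSig ℓ hℓ (by simpa using h)
  obtain ⟨hnt, φ, G, hφl, hlat, hG, hx⟩ :=
    H.exists_classified (residue_surjective (R := O)) hplace hA hSig' PR hd hact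
  obtain ⟨c₁, hc₁⟩ := H.exists_inv_cyclo hχ hunit
  obtain ⟨U₀, hU₀⟩ := exists_poly_root (fun _ : Unit => M * ∏ q ∈ (∅ : Finset ℕ), q)
    (fun _ => stdInputs (eichlerShimuraRelations (N := M * ∏ q ∈ (∅ : Finset ℕ), q) (p := p)))
    S c₁ σ₀ φF
  have HT : TwistData p S lam (fun q => (1 : (ZMod q)ˣ →* O)) ∅ (fun _ : Unit => M) (M * ∏ q ∈ (∅ : Finset ℕ), q) :=
    H.twistData_family hA (fun _ => dvd_rfl) (fun _ q hq => (hA.aux q hq).2.1) fun _ =>
      H.three.of_dvd (by simpa using hA.dvd)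
  obtain ⟨h1, h2⟩ := HT.heckeP_eq (residue_surjective (R := O))
    (eichlerShimuraRelations (N := M * ∏ q ∈ (∅ : Finset ℕ), q) (p := p)) ι₀ hpT L₀.D.rbar H.span
    H.cont (fun ℓ hℓ hℓS => H.trace_frob ℓ hℓ fun h => hℓS (hA.sub h)) H.detbar hPl hinertia hχ hσ₀
    hunit hφ _ (hlat _)
  rw [unitRoot_eq_twClass (residue_surjective (R := O)) ι₀ HT _ hχ hc₁ _ (hlat _) (hU₀ ())] at h2
  rw [← Top.map_unitRoot] at h1
  obtain ⟨u, hu⟩ := hφl.map_nonunit _ h1
  set U := twistPoly (invChar (fun q => (1 : (ZMod q)ˣ →* O)) ∅ S) (MvPolynomial.map ((algebraMap O O).comp ι₀) U₀)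
  set T : HeckePoly O := MvPolynomial.X ⟨p, hp⟩
  have hopU : act (u : PR.R) = opHom b (awayIncl O (↑S : Set ℕ) U) := by
    rw [hu]
    exact H.act_unitRoot (residue_surjective (R := O)) hplace hA hSig' PR hd hact hχ hc₁ (hU₀ ())
  have h3 : act (u : PR.R) * opHom b T = act ((u : PR.R) ^ 2 + (p : PR.R)) := by
    rw [map_add, map_pow, map_natCast, hopU, pow_two, ← map_mul, ← map_mul,
      ← map_natCast (opHom b), ← map_add]
    refine toMatrix_lsmul b _ (Algebra.lsmul O O _ (A := HeckePoly O)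
      (awayIncl O (↑S : Set ℕ) U * T)) fun z => ?_
    have h := h2 () z
    rw [← map_natCast (twClass (residue_surjective (R := O)) S lam (fun q => (1 : (ZMod q)ˣ →* O)) ∅ fun _ : Unit => M), ← map_mul, ← map_add,
      twClass_apply, twClass_apply, map_add, map_mul, map_natCast] at h
    have e : algebraMap O (HeckePoly O) (charProd (fun q => ((1 : (ZMod q)ˣ →* O)).comp invMonoidHom) ∅ p) * T = T := by
      rw [charProd, Finset.prod_empty, map_one, one_mul]
    rw [e] at h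
    show (awayIncl O (↑S : Set ℕ) U * T) • z = _
    rw [mul_smul]
    exact h
  -- a polynomial killing `T_p ^ 2` without the root `(p + 1) ^ 2`
  obtain ⟨r, hr, hr1, -, hrS, hne⟩ := H.exists_nonEisenstein S hA.sub
    (Nat.pos_of_ne_zero (NeZero.ne M))
  have : Fact r.Prime := ⟨hr⟩
  have hrM : ¬ r ∣ M := fun h => by
    have h1 := congrArg (ZMod.castHom h (ZMod r)) hr1
    rw [map_natCast, map_one, ZMod.natCast_self] at h1
    exact zero_ne_one h1
  obtain ⟨g, hg0, hg⟩ := TwoAdic.TSide.exists_poly_sq_levels hp M ∅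
  have hkill : opHom b (aeval (TwoAdic.TSide.scaledSq (1 : O) p) g) = 0 := by
    rw [← map_zero (opHom b)]
    refine toMatrix_lsmul b _ (Algebra.lsmul O O _ (A := HeckePoly O) _) fun z => ?_
    rw [zero_smul]
    refine TwoAdic.TSide.aeval_smul_eq_zero_loc (fun q => (1 : (ZMod q)ˣ →* O)) ∅
      (fun e he => absurd he (Finset.notMem_empty e)) hpM (r := r) ?_ hrM rfl ?_ ?_ hg z
    · rw [Finset.prod_empty, mul_one]; exact hr1
    · refine eisen_mem_awayMonoid (show r ∉ (↑S : Set ℕ) from hrS) fun h => hne ?_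
      have h' : lamHom O O (residue_surjective (R := O)) S lam _ = 0 := h
      rw [awayX, map_sub, lamHom_X, lamHom_C, map_add, map_natCast, map_one, sub_eq_zero] at h'
      exact h'
    · rw [charProd, Finset.prod_empty, one_pow, mul_one]
  set v : PR.R := ((↑u⁻¹ : PR.R) * ((u : PR.R) ^ 2 + (p : PR.R))) ^ 2
  have hv : act v = opHom b (TwoAdic.TSide.scaledSq (1 : O) p) := by
    show act (((↑u⁻¹ : PR.R) * ((u : PR.R) ^ 2 + (p : PR.R))) ^ 2) = _
    rw [TwoAdic.TSide.scaledSq, map_one, one_mul, map_pow act]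
    refine Eq.trans ?_ (map_pow (opHom b) _ 2).symm
    congr 1
    rw [map_mul act, ← h3,
      ← mul_assoc, ← map_mul act, Units.inv_mul, map_one, one_mul]
    rfl
  have hz : act (aeval v g) = 0 := by
    rw [← hkill]
    refine ((Polynomial.aeval_algHom_apply act.toIntAlgHom v g).symm).trans ?_
    refine Eq.trans ?_ (Polynomial.aeval_algHom_apply (opHom b).toRingHom.toIntAlgHom
      (TwoAdic.TSide.scaledSq (1 : O) p) g)
    exact congrArg (fun y => aeval y g) hv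
  obtain ⟨w, hw⟩ := Polynomial.sub_dvd_eval_sub v ((((p : ℤ) + 1) ^ 2 : ℤ) : PR.R)
    (g.map (algebraMap ℤ PR.R))
  rw [Polynomial.eval_map_algebraMap, algebraMap_int_eq, Polynomial.eval_intCast_map,
    Int.cast_id] at hw
  refine ⟨g.eval (((p : ℤ) + 1) ^ 2), hg0,
    ((↑u⁻¹ : PR.R) ^ 2 * ((u : PR.R) ^ 2 - (p : PR.R) ^ 2)) * w, ?_⟩
  rw [← hz, ← hu, show aeval v g = ((g.eval (((p : ℤ) + 1) ^ 2) : ℤ) : PR.R) +
    (v - ((((p : ℤ) + 1) ^ 2 : ℤ) : PR.R)) * w by linear_combination hw]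
  congr 1
  have hinv : (↑u⁻¹ : PR.R) * (u : PR.R) = 1 := Units.inv_mul u
  push_cast
  linear_combination (-((p : PR.R) + 1) ^ 2 * w * ((↑u⁻¹ : PR.R) * (u : PR.R) + 1)) * hinv

end Fermat.Agent.General

end
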