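import Fermat.Prelude.Def_FLTPrelim_Modularity
import Mathlib.Algebra.Field.ZMod

/-!
# The trivial bound `|a_p| ≤ p`

Each abscissa carries at most two points and the point at infinity is one.
-/

noncomputable section

namespace Fermat.Agent.General

open WeierstrassCurve

theorem card_point_le {F : Type} [Field F] [Finite F] (E : WeierstrassCurve F) :
    Nat.card E.toAffine.Point ≤ 2 * Nat.card F + 1 := by
  classical
  let y0 : F → F := fun x => if h : ∃ y, E.toAffine.Equation x y then h.choose else 0
  let f : E.toAffine.Point → Option (F × Bool) := fun P => match P with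
    | 0 => none
    | .some (x := x) (y := y) _ => some (x, decide (y = y0 x))
  have hy0 : ∀ {x y : F}, E.toAffine.Equation x y → E.toAffine.Equation x (y0 x) := fun {x y} h => by
    have he : ∃ y, E.toAffine.Equation x y := ⟨y, h⟩
    simp only [y0, dif_pos he]
    exact he.choose_spec
  have hf : Function.Injective f := by
    intro P Q h
    cases P with
    | zero =>
      cases Q with
      | zero => rfl
      | some x' y' h' => simp [f] at h
    | some x y h₁ =>
      cases Q with
      | zero => simp [f] at h
      | some x' y' h₂ =>
        simp only [f, Option.some.injEq, Prod.mk.injEq, decide_eq_decide] at h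
        obtain ⟨rfl, hiff⟩ := h
        have : y = y' := by
          by_cases hy : y = y0 x
          · rw [hy, hiff.1 hy]
          · have hy' : y' ≠ y0 x := fun e => hy (hiff.2 e)
            rw [(Affine.Y_eq_of_X_eq h₁.1 (hy0 h₁.1) rfl).resolve_left hy,
              (Affine.Y_eq_of_X_eq h₂.1 (hy0 h₂.1) rfl).resolve_left hy']
        subst this
        rfl
  have h1 := Nat.card_le_card_of_injective f hf
  rw [show Nat.card (Option (F × Bool)) = Nat.card (F × Bool) + 1 from Finite.card_option,
    Nat.card_prod, Nat.card_eq_fintype_card (α := Bool), Fintype.card_bool] at h1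
  omega

/-- The trivial bound on `a_p`. -/
theorem abs_apOfModel_le (W : WeierstrassCurve ℤ) (p : ℕ) [Fact p.Prime] :
    -(p : ℤ) ≤ W.apOfModel p ∧ W.apOfModel p ≤ p := by
  have h1 : Nat.card (W.reductionMod p).toAffine.Point ≤ 2 * Nat.card (ZMod p) + 1 :=
    card_point_le (W.reductionMod p)
  have h2 : 0 < Nat.card (W.reductionMod p).toAffine.Point :=
    Nat.card_pos_iff.2 ⟨⟨0⟩, inferInstance⟩
  rw [Nat.card_zmod] at h1
  unfold WeierstrassCurve.apOfModel WeierstrassCurve.traceOfFrobenius WeierstrassCurve.card
  rw [Nat.card_zmod]
  omega

end Fermat.Agent.General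

end
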