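import Fermat.Agent.Engine.Top.LiftPoint
import Fermat.Agent.Engine.Top.PlaceQuad
import Fermat.Agent.General.Ord.PointBound

/-!
# At good ordinary reduction the defect does not vanish at the point of the curve

The unit root `u` satisfies `u ^ 2 - a_p u + p = 0`, so `u ^ 2 = 1` would give `|a_p| = p + 1`.
-/

noncomputable section

open IsLocalRing Fermat.Agent.DefRing Fermat.Agent.Deform

namespace Fermat.Agent.General

open Engine Engine.TRep Engine.Top EigenRep EllLocal
open scoped WeierstrassCurve.Affine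

local notation "Qbar" => AlgebraicClosure ℚ

variable {W : WeierstrassCurve ℤ} {p : ℕ} [Fact p.Prime] {C : Coeff p} {R : ResidualData W C}
  {Ch : PlaceChoice C} {T : Finset ℕ} {PB : (R.ordLevel Ch T).RepRing} {x : PB.R →ₐ[C.O] C.O}

/-- **The defect is not zero at the point.** -/
theorem defect_ne_zero (hx : IsCurvePoint R Ch PB x) (hgood : W.IsGoodPrimeFor p)
    (hap : ¬ (p : ℤ) ∣ W.apOfModel p) : x (Ch.defect PB.rep) ≠ 0 := by
  classical
  have hΔ : W.Δ ≠ 0 := fun h0 => hgood (h0 ▸ dvd_zero _)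
  have : (W.map (Int.castRingHom ℚ)).IsElliptic :=
    ⟨isUnit_iff_ne_zero.2 (by simpa [WeierstrassCurve.map_Δ] using hΔ)⟩
  obtain ⟨b, hb, hroot⟩ := exists_adapted_good hgood hap Ch.over_p
  have hc : IsCont (mapRep C.ι₀ (tateMat b)) :=
    (isCont_matrixRep (tateRep (W.map (Int.castRingHom ℚ)) p) b).map C.ι₀ C.isLocalHom
  have ht : ∀ σ, (mapRep (x : PB.R →+* C.O) PB.rep σ).trace =
      (mapRep C.ι₀ (tateMat b) σ).trace :=
    trace_eq_of_frobenius hx.lift.cont hc (insert p W.Δ.natAbs.primeFactors)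
      fun ℓ hℓ hℓS A hA σ hσ => by
        rw [Finset.mem_insert, Nat.mem_primeFactors, not_or] at hℓS
        have hgℓ : W.IsGoodPrimeFor ℓ := fun hd =>
          hℓS.2 ⟨hℓ, Int.natCast_dvd.1 hd, Int.natAbs_ne_zero.2 hΔ⟩
        rw [hx.lift.trace_frob ℓ hℓ hℓS.1 hgℓ A hA σ hσ, trace_mapRep,
          trace_tateMat_frob b hℓ hℓS.1 hgℓ hA hσ, map_intCast]
  obtain ⟨-, hz⟩ := hroot Ch.φ Ch.frob
  set z := tateMat b Ch.φ 1 1
  have hu : unitRoot C.cyclo Ch.σ₀ Ch.φ (mapRep (x : PB.R →+* C.O) PB.rep) = C.ι₀ z := by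
    rw [← hb.unitRoot_eq Ch.σ₀_mem Ch.unit Ch.frob.mem_decompositionSubgroup]
    simp only [unitRoot, ht]
  intro h0
  rw [Ch.map_defect, PlaceChoice.defect, hu, sub_eq_zero, ← map_pow, ← map_one C.ι₀] at h0
  have h1 : z ^ 2 = 1 := C.ι₀_injective h0
  have hp : (2 : ℕ) ≤ p := (Fact.out : p.Prime).two_le
  have hbd := abs_apOfModel_le W p
  rcases sq_eq_one_iff.1 h1 with hz1 | hz1 <;> rw [hz1] at hz
  · have h2 : ((W.apOfModel p : ℤ) : ℤ_[p]) = (((p : ℤ) + 1 : ℤ) : ℤ_[p]) := by
      push_cast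
      linear_combination -hz
    have := Int.cast_injective (α := ℤ_[p]) h2
    omega
  · have h2 : ((W.apOfModel p : ℤ) : ℤ_[p]) = ((-((p : ℤ) + 1) : ℤ) : ℤ_[p]) := by
      push_cast
      linear_combination hz
    have := Int.cast_injective (α := ℤ_[p]) h2
    omega

/-- At the point the value at the Kummer element is trivial. -/
theorem kummer_eq_zero (hx : IsCurvePoint R Ch PB x) (hgood : W.IsGoodPrimeFor p)
    (hap : ¬ (p : ℤ) ∣ W.apOfModel p) {S : Finset ℕ} (P : ((R.ordLevel Ch T).withSigma S).RepRing)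
    (f : P.R →ₐ[C.O] PB.R) (hf : ∀ σ, (P.rep σ).map f = PB.rep σ) (i j : Fin 2) :
    x (f ((P.rep Ch.s - 1) i j)) = 0 := by
  have hrep : mapRep (f : P.R →+* PB.R) P.rep = PB.rep := MonoidHom.ext fun σ => hf σ
  have h1 : x (f (Ch.defect P.rep)) = x (Ch.defect PB.rep) := by
    rw [← hrep, ← Ch.map_defect]
  have h2 := congrFun (congrFun (R.defect_smul_rep Ch P) i) j
  rw [Matrix.smul_apply, smul_eq_mul, Matrix.zero_apply] at h2
  have h3 := congrArg (fun y => x (f y)) h2
  simp only [map_mul, map_zero, h1] at h3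
  exact (mul_eq_zero.1 h3).resolve_left (defect_ne_zero hx hgood hap)

/-- At good ordinary reduction the Kummer element is in the residual kernel. -/
theorem rbar_kummer_eq_one (hx : IsCurvePoint R Ch PB x) (hgood : W.IsGoodPrimeFor p)
    (hap : ¬ (p : ℤ) ∣ W.apOfModel p) : R.D.rbar Ch.s = 1 := by
  have h1 : mapRep (x : PB.R →+* C.O) PB.rep Ch.s = 1 := by
    have h0 : Ch.defect PB.rep • (PB.rep Ch.s - 1) = 0 :=
      Ch.defect_smul_sub_one PB.instIsLocalHom PB.residue_surjective PB.isLift.cont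
        (fun σ _ => PB.isLift.eqs.det σ)
        ((mem'_ordinaryClosed PB.instIsLocalHom PB.residue_surjective).1 PB.isLift.atPlace)
    ext i j
    have h2 := congrArg x (congrFun (congrFun h0 i) j)
    rw [Matrix.smul_apply, smul_eq_mul, Matrix.zero_apply, map_mul, map_zero] at h2
    have h3 := (mul_eq_zero.1 h2).resolve_left (defect_ne_zero hx hgood hap)
    rw [Matrix.sub_apply, map_sub, sub_eq_zero] at h3
    rw [mapRep_apply, Matrix.map_apply]
    refine h3.trans ?_
    rw [Matrix.one_apply, Matrix.one_apply]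
    split_ifs <;> simp
  rw [← hx.lift.red Ch.s, h1, Matrix.map_one _ (map_zero _) (map_one _)]

end Fermat.Agent.General

end
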