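import Fermat.Agent.Engine.AuxLevels
import Fermat.Agent.Engine.LiftingRaising

/-!
# Lifting with the defect of the unit root injective on the base classes

`AuxLevels.reflect`: the further generators `z` replaced by `w - z`.  `ker_le_of_defect`: if the
further generator divides a non-zero integer on the base classes, the patched classes lie where it
does not vanish, that is where it equals the coordinate.
-/

noncomputable section

namespace Fermat.Agent.Engine

open IsLocalRing Filter Patch Fermat.Agent.Deform Fermat.Agent.DefRing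

variable {O : Type} [CommRing O] [IsDomain O] [IsDiscreteValuationRing O]
  [IsAdicComplete (maximalIdeal O) O] [Finite (ResidueField O)] {r : ℕ} {T : Type} [Fintype T]
  {r₀ : T} {frob tame : T → GQ} {Φ₀ : T → Matrix (Fin 2) (Fin 2) O} {L₀ : LevelData O}
  {PB : L₀.RepRing}

/-- The further generators `z` replaced by `w - z`, `w` a coordinate. -/
def AuxLevels.reflect (X : AuxLevels r r₀ frob tame Φ₀ L₀ PB) (l : Fin X.g)
    (w : ∀ n, (X.P n).R)
    (hl : ∀ n, X.θ n (MvPowerSeries.X (Sum.inr (Sum.inr l))) = MvPowerSeries.C (w n)) :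
    AuxLevels r r₀ frob tame Φ₀ L₀ PB :=
  { X with
    extra := fun n k => w n - X.extra n k
    extra_mem := fun n k => by
      have : IsLocalHom (X.θ n : LocRing O T X.g →+* (X.P n).Framed r₀) := X.θ_isLocalHom n
      have h := map_nonunit (X.θ n : LocRing O T X.g →+* (X.P n).Framed r₀) _
        (DefRing.X_mem_maximalIdeal (Sum.inr (Sum.inr l) : _))
      rw [show (X.θ n : LocRing O T X.g →+* (X.P n).Framed r₀)
        (MvPowerSeries.X (Sum.inr (Sum.inr l))) = MvPowerSeries.C (w n) from hl n,
        DefRing.mem_maximalIdeal_iff_constantCoeff, MvPowerSeries.constantCoeff_C] at h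
      exact sub_mem h (X.extra_mem n k)
    generates := fun n => by
      obtain ⟨Φ, hsurj, hC, hX⟩ := X.generates n
      have : IsAdicComplete (maximalIdeal (LocRing O T X.g)) (LocRing O T X.g) :=
        DefRing.isAdicComplete_mvPowerSeries
      have : IsAdicComplete (maximalIdeal (MvPowerSeries (Fin X.nExtra) (LocRing O T X.g)))
          (MvPowerSeries (Fin X.nExtra) (LocRing O T X.g)) :=
        DefRing.isAdicComplete_mvPowerSeries
      set W : LocRing O T X.g := MvPowerSeries.X (Sum.inr (Sum.inr l))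
      obtain ⟨σ, hσC, hσX⟩ := exists_eval
        (J := maximalIdeal (MvPowerSeries (Fin X.nExtra) (LocRing O T X.g)))
        (MvPowerSeries.C : LocRing O T X.g →+* MvPowerSeries (Fin X.nExtra) (LocRing O T X.g))
        (fun k => MvPowerSeries.C W - MvPowerSeries.X k) fun k => by
          refine sub_mem ?_ (DefRing.X_mem_maximalIdeal k)
          rw [DefRing.mem_maximalIdeal_iff_constantCoeff, MvPowerSeries.constantCoeff_C]
          exact DefRing.X_mem_maximalIdeal _
      have hσσ : σ.comp σ = RingHom.id _ := eval_unique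
        (J := maximalIdeal (MvPowerSeries (Fin X.nExtra) (LocRing O T X.g)))
        (fun k => by
          rw [RingHom.comp_apply, hσX, map_sub, hσC, hσX, sub_sub_cancel]
          exact DefRing.X_mem_maximalIdeal k)
        (fun b => by rw [RingHom.comp_apply, hσC, hσC, RingHom.id_apply])
        (fun k => by
          rw [RingHom.comp_apply, hσX, map_sub, hσC, hσX, sub_sub_cancel, RingHom.id_apply])
      refine ⟨Φ.comp σ, fun f => ?_, fun x => ?_, fun k => ?_⟩
      · obtain ⟨t, rfl⟩ := hsurj f
        exact ⟨σ t, congrArg Φ (RingHom.congr_fun hσσ t)⟩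
      · rw [RingHom.comp_apply, hσC, hC]
      · rw [RingHom.comp_apply, hσX, map_sub, hC, hX, hl, ← map_sub] }

omit [Finite (ResidueField O)] in
theorem AuxPrimes.reflect {p : ℕ} {X : AuxLevels r r₀ frob tame Φ₀ L₀ PB} {Q : ℕ → Fin r → ℕ}
    (h : AuxPrimes p X Q) (l : Fin X.g) (w : ∀ n, (X.P n).R)
    (hl : ∀ n, X.θ n (MvPowerSeries.X (Sum.inr (Sum.inr l))) = MvPowerSeries.C (w n)) :
    AuxPrimes p (X.reflect l w hl) Q :=
  ⟨h.injective, h.prime, h.ne_p, h.not_mem, h.dvd_sub_one, h.distinct, h.sigma_eq,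
    h.tame_generator⟩

namespace LiftingLevels

variable {p : ℕ} [Fact p.Prime] [CharP (ResidueField O) p] {qv : T → ℕ}
  {X : AuxLevels r r₀ frob tame Φ₀ L₀ PB} (H : LiftingLevels p qv X) (hnE : X.nExtra = 1)
  (l : Fin X.g) (w : ∀ n, (X.P n).R)
  (hl : ∀ n, X.θ n (MvPowerSeries.X (Sum.inr (Sum.inr l))) = MvPowerSeries.C (w n))

open Classical in
include hl in
/-- **Lifting, the further generator injective on the base classes.** -/
theorem ker_le_of_defect
    (hquad : ∀ L n, H.act L n
      (X.extra n ⟨0, hnE ▸ one_pos⟩ * (X.extra n ⟨0, hnE ▸ one_pos⟩ - w n)) = 0)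
    (hF : FramedPrimes p L₀ qv frob tame) (h2 : IsUnit (2 : O)) [CharZero O]
    {K : Type} [CommRing K] [IsDomain K] (x : PB.R →+* K)
    (hx : ∀ v, x ((PB.rep (tame v)).trace) = 2)
    (hxe : ∀ n, x (X.toBase n (w n - X.extra n ⟨0, hnE ▸ one_pos⟩)) = 0)
    (E₀ : PB.R) (hE₀ : ∀ n, X.toBase n (X.extra n ⟨0, hnE ▸ one_pos⟩) = E₀)
    (hinj : ∃ c : ℤ, c ≠ 0 ∧ ∃ h : PB.R,
      H.act₀ (Finset.univ.filter fun v => ∃ i j, x ((PB.rep (tame v) - 1) i j) ≠ 0)
        ((c : PB.R) + E₀ * h) = 0) :
    RingHom.ker (H.act₀ (Finset.univ.filter fun v => ∃ i j, x ((PB.rep (tame v) - 1) i j) ≠ 0)) ≤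
      RingHom.ker x := by
  have : IsAdicComplete (maximalIdeal (CoeffRing O r T r₀)) (CoeffRing O r T r₀) :=
    DefRing.isAdicComplete_mvPowerSeries
  have : Finite (ResidueField (CoeffRing O r T r₀)) := finite_residueField_series
  have : IsAdicComplete (maximalIdeal (LocRing O T X.g)) (LocRing O T X.g) :=
    DefRing.isAdicComplete_mvPowerSeries
  have : Finite (ResidueField (LocRing O T X.g)) := finite_residueField_series
  have : IsAdicComplete (maximalIdeal (ExtRing O T r X.nExtra X.g))
      (ExtRing O T r X.nExtra X.g) := DefRing.isAdicComplete_mvPowerSeries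
  have : Finite (ResidueField (ExtRing O T r X.nExtra X.g)) := finite_residueField_series
  have : Finite (ResidueField PB.R) :=
    (residue_facts (p := p) PB.instIsLocalHom PB.residue_surjective).1
  have : IsLocalHom (MvPowerSeries.C : LocRing O T X.g →+* ExtRing O T r X.nExtra X.g) :=
    ⟨fun a ha => by simpa [MvPowerSeries.isUnit_iff_constantCoeff] using ha⟩
  set L := Finset.univ.filter fun v => ∃ i j, x ((PB.rep (tame v) - 1) i j) ≠ 0 with hLdef
  set S := H.toSystem (ExtraControl.ofPinned H hnE l w hl hquad) hF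
  set Z : ExtRing O T r X.nExtra X.g := MvPowerSeries.X (Sum.inr ⟨0, hnE ▸ one_pos⟩)
  set E := pinnedE (X := X) hnE l with hEdef
  obtain ⟨τ, hc, hτ, hker⟩ := exists_type_of_point X hF x hx
  obtain ⟨P, hP, hann, hcomap⟩ := support_all_types S.family h2
    (fun v => ⟨isUnit_qv hF v, (hF.prime v).one_lt⟩) inferInstance L τ hc hτ
  -- the further generator acts injectively
  have hZ : limitHom S.ψ Z = E₀ := limitHom_eq_of_forall _ fun n => by
    show X.baseMap n Z = E₀
    rw [AuxLevels.baseMap, RingHom.comp_apply, RingHom.comp_apply, X.extMap_inr,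
      MvPowerSeries.constantCoeff_C, AuxLevels.framedBase, RingHom.comp_apply,
      MvPowerSeries.constantCoeff_C]
    exact hE₀ n
  let ρS : ExtRing O T r X.nExtra X.g →+*
      Matrix (Fin (H.rank L)) (Fin (H.rank L)) (CoeffRing O r T r₀) := S.act L
  have hA : (MvPowerSeries.constantCoeff (R := O)).mapMatrix (ρS Z) = H.act₀ L E₀ := by
    ext i j
    have h := sum_patchAction_base (S.isBasis L) S.tendsToZero S.ψ (S.isBasis₀ L) (S.π L)
      (S.π_smul L) (S.π_e L) Z j
    rw [hZ] at h
    set ρ := AuxLevels.baseAct (O := O) (PB := PB) (d := H.rank L) r r₀ (H.act₀ L)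
    have h' : AuxLevels.baseVec (act₀ := H.act₀ L) (∑ k, ρS Z k j • levelBasis ρ k) i =
        AuxLevels.baseVec (E₀ • (levelBasis ρ j : AuxLevels.BaseMod r r₀ (H.act₀ L))) i :=
      congrArg (fun y : AuxLevels.BaseMod r r₀ (H.act₀ L) => AuxLevels.baseVec y i) h
    have h'' : Ideal.Quotient.mk (augIdeal O r r₀) (ρS Z i j) =
        Ideal.Quotient.mk (augIdeal O r r₀) (MvPowerSeries.C (H.act₀ L E₀ i j)) :=
      (congrFun (sum_levelBasis ρ fun k => ρS Z k j) i).symm.trans (h'.trans (by
        rw [AuxLevels.baseVec_smul]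
        show Matrix.mulVec _ (Pi.single j 1) i = _
        rw [Matrix.mulVec_single, MulOpposite.op_one, one_smul, Matrix.col_apply, Matrix.map_apply,
          RingHom.comp_apply]))
    have h3 := RingHom.mem_ker.1 (augIdeal_le_ker O r r₀ (Ideal.Quotient.eq.1 h''))
    rw [map_sub, MvPowerSeries.constantCoeff_C, sub_eq_zero] at h3
    exact h3
  have hdet : (ρS Z).det ≠ 0 := fun h0 => by
    obtain ⟨c, hc0, h, hh⟩ := hinj
    rw [map_add, map_intCast, map_mul, add_eq_zero_iff_eq_neg'] at hh
    have h1 := congrArg Matrix.det hh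
    rw [Matrix.det_mul, ← hA, ← RingHom.map_det, h0, map_zero, zero_mul, ← Int.cast_neg,
      ← Matrix.diagonal_intCast, Matrix.det_diagonal, Finset.prod_const] at h1
    exact pow_ne_zero _ (Int.cast_ne_zero.2 (neg_ne_zero.2 hc0)) h1.symm
  have hE : E ∈ P := hann (by
    have h0 : Z * E ∈ Module.annihilator _ (Acted (S.act L)) :=
      S.mem_annihilator fun n (y : LevelMod (X.fullAct n p (H.act L n))) => by
        refine smul_eq_zero_of_eq_zero _ ?_ y
        have h := (ExtraControl.ofPinned H hnE l w hl hquad).eq L n ⟨0, hnE ▸ one_pos⟩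
        rw [show Z * E = -(Z * (Z - MvPowerSeries.C (MvPowerSeries.X (Sum.inr (Sum.inr l))))) by
          rw [hEdef, pinnedE]; ring, map_neg]
        exact neg_eq_zero.2 h
    have h2 : ρS (Z * E) = 0 :=
      RingHom.mem_ker.1 ((le_of_eq (annihilator_acted (S.act L))) h0)
    rw [map_mul] at h2
    have h1 := congrArg ((ρS Z).adjugate * ·) h2
    simp only [← mul_assoc, Matrix.adjugate_mul, Matrix.smul_mul, one_mul, mul_zero] at h1
    exact (annihilator_acted (S.act L)).ge
      (RingHom.mem_ker.2 ((smul_eq_zero.1 h1).resolve_left hdet)))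
  have hquad_eq : ∀ q ∈ S.quad, q = -E := fun q hq => by
    obtain ⟨j, -, rfl⟩ := Finset.mem_image.1 hq
    obtain rfl : j = ⟨0, hnE ▸ one_pos⟩ := Fin.ext (by have := j.2; omega)
    exact (neg_sub _ _).symm
  intro b hb
  exact S.annihilator_le_ker_of_type X.surjective_baseMap hann x (hcomap.le.trans hker)
    (fun q hq => hquad_eq q hq ▸ neg_mem hE)
    (fun q hq => by
      rw [hquad_eq q hq, map_neg, map_neg, neg_eq_zero]
      exact ulim_mem_ideal (RingHom.ker x) fun n => by
        show x (X.baseMap n E) = 0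
        rw [hEdef, baseMap_pinnedE hnE l w hl n]
        exact hxe n)
    (AuxLevels.mem_annihilator_baseAct (RingHom.mem_ker.1 hb))

end LiftingLevels

end Fermat.Agent.Engine

end
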