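import Fermat.Agent.Engine.Lifting.RaisingAtP
import Fermat.Agent.General.Ord.Defect
import Fermat.Agent.General.Ord.GoodPoint
import Fermat.Agent.General.Ord.Kernel
import Fermat.Agent.General.Three.PlaceAux
import Fermat.Agent.General.Top.OddResidual
import Fermat.Agent.General.Top.AuxSet
import Fermat.Agent.General.Top.PlaceOdd
import Fermat.Agent.General.Top.Tail
import Fermat.Agent.GalCoh.GW.Final

/-!
# Lifting at a good ordinary place, any unit root

`a_p ^ 2 ≢ 1`: no further generator.  `a_p ^ 2 ≡ 1`: the defect is the further generator, injective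
at levels prime to `p`, so its partner at the Kummer element dies.
-/

noncomputable section

open IsLocalRing Fermat.Agent.DefRing Fermat.Agent.Deform

namespace Fermat.Agent.General

open HeckeModule Engine Engine.TRep Engine.Lifting Engine.Top

local notation "Qbar" => AlgebraicClosure ℚ

variable {W : WeierstrassCurve ℤ} {p : ℕ} [Fact p.Prime] {C : Coeff p} {R : ResidualData W C}
  {Ch : PlaceChoice C} {T U : Finset ℕ} {PB : (R.ordLevel Ch (T ∪ U)).RepRing}
  {x : PB.R →ₐ[C.O] C.O}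

/-- **Lifting from auxiliary levels at a good ordinary place.** -/
theorem exists_level_ord (hx : IsCurvePoint R Ch PB x) (h : OddResidual W p)
    (hgood : W.IsGoodPrimeFor p) (hap : ¬ (p : ℤ) ∣ W.apOfModel p) {M : ℕ}
    (hB : LiftingBase W p U M) (hT : ∀ q ∈ T, q.Prime ∧ q ≠ p ∧ q ∉ Smin W p) (hTU : Disjoint T U)
    (hbad : ∀ q : ℕ, q.Prime → (q : ℤ) ∣ W.Δ → q ≠ p → q ∈ Smin W p ∪ (T ∪ U))
    {frob tame : T → GQ}
    (hF : FramedPrimes p (R.ordLevel Ch (T ∪ U)) (fun v : T => (v : ℕ)) frob tame) {r : ℕ} {r₀ : T}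
    {Φ₀ : T → Matrix (Fin 2) (Fin 2) C.O}
    (X : AuxLevels r r₀ frob tame Φ₀ (R.ordLevel Ch (T ∪ U)) PB) {Q : ℕ → Fin r → ℕ}
    (hX : AuxPrimes p X Q)
    (hkind : X.nExtra = 0 ∨ ∃ (_ : X.nExtra = 1) (i j : Fin 2),
      (∀ n e, X.extra n e = ((X.P n).rep Ch.s - 1) i j) ∧
      ∃ l : Fin X.g, ∀ n, X.θ n (MvPowerSeries.X (Sum.inr (Sum.inr l))) =
        MvPowerSeries.C (Ch.defect (X.P n).rep + ((X.P n).rep Ch.s - 1) i j)) :
    ∃ N : ℕ, Squarefree N ∧ W.IsModularModelOfLevel N := by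
  classical
  have hpp : p.Prime := Fact.out
  have hsq : Squarefree M := hB.level.2.1
  have hthree : ThreeOK p M := hB.aux.threeOK hB.dvd
  have hcase : ¬ W.IsGoodPrimeFor p ∨ ¬ (p : ℤ) ∣ W.apOfModel p := Or.inr hap
  have : NeZero M := ⟨hB.level.2.1.ne_zero⟩
  have : Fact ((p : C.O) ∈ maximalIdeal C.O) := ⟨C.p_mem⟩
  have H : LevelSetting p C.ι₀ M (apLam W C.O) (fun v : T => (v : ℕ)) (R.ordLevel Ch (T ∪ U)) frob
      tame := R.levelSetting_odd h hT hTU hbad hthree hsq hB.support hB.level.2.2.2 Ch.P _ hF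
  have hplace := R.topPlaceHyp_odd Ch h hcase hbad hthree hsq fun q hq hd =>
    mem_union_framed (hB.support q hq hd)
  have hxt : ∀ v : T, (x : PB.R →+* C.O) (PB.rep (tame v)).trace = 2 := fun v => by
    obtain ⟨A, hA, -, ht, -⟩ := hF.place v
    exact hx.trace_tame (hT v v.2).1 (hT v v.2).2.1 hA ht
  rcases hkind with hnE | ⟨hnE, i, j, hext, l, hl⟩
  · obtain ⟨α, ψ, hTW⟩ := H.toBaseSetting.exists_twData hX
    obtain ⟨B, hB₀, -⟩ := H.exists_liftingLevels hX hplace hTW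
    set L₁ := Finset.univ.filter fun v : T =>
      ∃ i j, (x : PB.R →+* C.O) ((PB.rep (tame v) - 1) i j) ≠ 0
    refine exists_modular_of_ker_le hx.lift h hT hTU hbad hthree hsq hB.support B
      (fun L _ => ?_) (B.ker_le hnE hF H.toBaseSetting.two (x : PB.R →+* C.O) hxt)
    obtain ⟨e, -, he⟩ := hB₀ L
    exact ⟨e, he⟩
  set w : ∀ n, (X.P n).R := fun n =>
    Ch.defect (X.P n).rep + ((X.P n).rep Ch.s - 1) i j with hw
  set X' := X.reflect l w hl
  have hX' : AuxPrimes p X' Q := hX.reflect l w hl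
  have hext' : ∀ n e, X'.extra n e = Ch.defect (X.P n).rep := fun n e => by
    show w n - X.extra n e = _
    rw [hext, hw]
    ring
  obtain ⟨α, ψ, hTW⟩ := H.toBaseSetting.exists_twData hX'
  obtain ⟨B, hB₀, -⟩ := H.exists_liftingLevels hX' hplace hTW
  set L₁ := Finset.univ.filter fun v : T =>
    ∃ i j, (x : PB.R →+* C.O) ((PB.rep (tame v) - 1) i j) ≠ 0
  refine exists_modular_of_ker_le hx.lift h hT hTU hbad hthree hsq hB.support B
    (fun L _ => ?_) ?_
  · obtain ⟨e, -, he⟩ := hB₀ L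
    exact ⟨e, he⟩
  have hrep : ∀ n, mapRep (X.toBase n : (X.P n).R →+* PB.R) (X.P n).rep = PB.rep := fun n =>
    MonoidHom.ext fun σ => X.toBase_rep n σ
  have hpL : ¬ p ∣ liftLevel M (fun v : T => (v : ℕ)) L₁ := fun hd =>
    ((dvd_liftLevel_iff (fun v : T => (hT v v.2).1) hpp).1 hd).elim (hB.level.2.2.1 hgood)
      fun ⟨v, _, hv⟩ => (hT v v.2).2.1 hv.symm
  have : NeZero (liftLevel M (fun v : T => (v : ℕ)) L₁) := ⟨(H.levelOK L₁).ne_zero⟩
  obtain ⟨e₁, hact, -⟩ := hB₀ L₁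
  have hd : B.rank L₁ ≠ 0 := fun h0 => by
    have : IsEmpty (Fin (B.rank L₁)) := by rw [h0]; infer_instance
    exact not_nontrivial_iff_subsingleton.2 e₁.repr.toEquiv.subsingleton (H.nontrivial_level L₁)
  obtain ⟨c, hc, g, hg⟩ := exists_dvd_defect H.toBaseSetting hplace
    (H.toBaseSetting.arith_base (H.levelOK L₁)) hpL
    (Sig := (R.ordLevel Ch (T ∪ U)).Sigma) (fun ℓ hℓ hd => (H.levelOK L₁).mem ℓ hℓ hd) PB hd hact
    Ch.over_p (fun σ hσ => R.inertia_trace_rbar_odd Ch h hcase hσ) (χ := C.cyclo) (fun _ => rfl)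
    Ch.σ₀_mem Ch.unit Ch.frob
  refine B.ker_le_of_defect (X := X') hnE l w hl (fun L n => ?_) hF H.toBaseSetting.two
    (x : PB.R →+* C.O) hxt (fun n => ?_) (Ch.defect PB.rep) (fun n => ?_) ⟨c, hc, g, hg⟩
  · have h0 : Ch.defect (X.P n).rep * ((X.P n).rep Ch.s - 1) i j = 0 := by
      have := congrFun (congrFun (R.defect_smul_rep Ch (X.P n)) i) j
      rwa [Matrix.smul_apply, smul_eq_mul, Matrix.zero_apply] at this
    rw [hext' n]
    have e : Ch.defect (X.P n).rep * (Ch.defect (X.P n).rep - w n) = 0 := by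
      rw [hw]; linear_combination -h0
    exact (congrArg (B.act L n) e).trans (map_zero (B.act L n))
  · rw [hext' n]
    have e : w n - Ch.defect (X.P n).rep = ((X.P n).rep Ch.s - 1) i j := by rw [hw]; ring
    exact (congrArg (fun y => x (X.toBase n y)) e).trans
      (kummer_eq_zero hx hgood hap (X.P n) (X.toBase n) (X.toBase_rep n) i j)
  · rw [hext' n]
    show X.toBase n (Ch.defect (X.P n).rep) = _
    rw [Ch.map_defect, hrep]

/-- **Case O of lifting.** -/
theorem liftingOrd (p : ℕ) [Fact p.Prime] (hp2 : p ≠ 2) : LiftingOrd p := by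
  intro W U M hΔ hss hirr ⟨hgood, hap⟩ hB
  classical
  have h : OddResidual W p := oddResidual_of_semistable hp2 hΔ hss hirr
  obtain ⟨C⟩ := nonempty_coeff p
  obtain ⟨R⟩ := nonempty_residualData h C
  obtain ⟨Ch⟩ := General.Top.exists_placeChoice_odd C hp2
  obtain ⟨T, hTne, hT, hTU, hbad⟩ := exists_framedSet_avoid h hB.aux
  have hcase : ¬ W.IsGoodPrimeFor p ∨ ¬ (p : ℤ) ∣ W.apOfModel p := Or.inr hap
  obtain ⟨L, Φ₀, hL, hΦ₀, hF⟩ :=
    R.exists_localChoices h T hT Ch.P (ordinaryClosed Ch.P C.cyclo)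
  have hF' : FramedPrimes p (R.ordLevel Ch (T ∪ U)) (fun v : T => (v : ℕ)) L.frob L.tame :=
    R.framedPrimes_levelData hF
  let PB := Classical.choice
    (LevelData.nonempty_repRing (R.isResidual_ordLevel Ch h hcase (T ∪ U)))
  obtain ⟨x, hx⟩ := R.exists_curvePoint Ch h hcase hbad PB
  obtain ⟨q₀, hq₀⟩ := hTne
  let r₀ : T := ⟨q₀, hq₀⟩
  have hinv : GalCoh.Reciprocity p := (CFT.cftInputs p).reciprocity
  have hGW : GalCoh.GreenbergWilesLe p := GalCoh.greenbergWilesLe p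
  by_cases hap1 : (p : ℤ) ∣ W.apOfModel p ^ 2 - 1
  · have hdef : Ch.defect R.D.rbar = 0 := by
      rw [R.defect_rbar_good Ch h hgood hap]
      have := (CharP.intCast_eq_zero_iff (ResidueField C.O) p _).2 hap1
      push_cast at this
      exact this
    obtain ⟨i, j, r, -, Q, X, hnE, hX, hext, l, hl⟩ := R.exists_aux_unram_odd Ch hinv hGW h T hT L
      hL r₀ Φ₀ hΦ₀ U (hB.aux.residual R) PB hcase hdef (rbar_kummer_eq_one hx hgood hap)
    exact exists_level_ord hx h hgood hap hB hT hTU hbad hF' X hX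
      (Or.inr ⟨hnE, i, j, hext, l, hl⟩)
  · obtain ⟨r, -, Q, X, hnE, hX⟩ := R.exists_aux_good_odd Ch hinv hGW h T hT L hL r₀ Φ₀ hΦ₀ U
      (hB.aux.residual R) PB hgood hap hap1
    exact exists_level_ord hx h hgood hap hB hT hTU hbad hF' X hX (Or.inl hnE)

end Fermat.Agent.General

end
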